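/-
GATE-F (S40) / node GF-KUM-DESC, file 1 (helper19): **generic descent of an invariant Kummer class
to an invariant function** (`GB/A/Descent.exists_fixed_rep` generalised from `ℚ̄(X₀(N))` to ANY
function field with the Riemann–Roch package, e.g. the Kummer cover `F' = F(G)`, `G ^ p = g₀`).

Frame: `F / K` a function field (`FiniteResidues`, `HasPrincipalDivisors`, a place; all of it comes
from `S24.IsGen K x` when `K` is algebraically closed of characteristic zero, see `Closed` below),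
`S` a set of semilinear automorphisms of `F / K` (prelude `SemilinearAut K F`), `P` a place of
degree one fixed by `S`, and a **normaliser** `lc : F →*₀ K` (`lc c = c` on constants,
`lc (g • f) = g (lc f)` for `g ∈ S`; e.g. the leading coefficient at `P` with respect to an
`S`-fixed uniformiser, file `Norm.lean`, or the leading `q`-coefficient when `F ⊆ K((q))`).

* `Normaliser.smul_eq_self`     : `lc f = 1`, `g • f = c · f` ⟹ `g • f = f`;
* `exists_fixed_generator`      : **an `S`-invariant principal divisor has an `S`-fixed generator**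
  (`f / lc f`; the generator is unique up to a constant);
* `exists_fixed_rep`            : **(A2 generic)** `u₀` with `m ∣ div u₀` and
  `g • u₀ ∈ Kˣ · u₀ · (Fˣ)^m` for `g ∈ S` ⟹ `∃ w`, `f := u₀ · w ^ m` is fixed by every `g ∈ S`,
  `lc f = 1`, `(1/m)·div f = E − n·P` with `E ≥ 0` `S`-stable of degree `n ≤ g`.  No Hilbert 90.
* `exists_fixed_factor`         : `δ` commuting with `S`, `f` `S`-fixed, `δ f = f · n ^ m`
  ⟹ `δ f = f · c₁ · m₁ ^ m` with `m₁` `S`-fixed and `c₁` an `S`-fixed constant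
  (`m₁ = n / lc n`, `c₁ = (lc n) ^ m`): the normaliser replaces Hilbert 90 for the constants.
-/
import Fermat.Agent.GR.W.RatRep
import Fermat.Agent.GH.KummerEquivariant

set_option autoImplicit false

noncomputable section

open AlgebraicCurve

namespace Fermat.Agent.GF.KumDesc.Generic

open Fermat.Agent.GJ.KumGroup Fermat.Agent.GH.KummerPic Fermat.Agent.GH.KummerEquivariant
  Fermat.Agent.GR.W.RatRep Fermat.Agent.RRh45 Fermat.Agent.S24 Fermat.Agent.RR

variable {K F : Type*} [Field K] [Field F] [Algebra K F]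

/-- **a normaliser** for a set `S` of semilinear automorphisms: a multiplicative retraction
`F → K` of the constants, equivariant for `S`. -/
structure Normaliser (S : Set (SemilinearAut K F)) where
  /-- the "leading coefficient" -/
  lc : F →*₀ K
  lc_algebraMap : ∀ c : K, lc (algebraMap K F c) = c
  lc_smul : ∀ g ∈ S, ∀ f : F, lc (g • f) = SemilinearAut.baseAut g (lc f)

namespace Normaliser

variable {S : Set (SemilinearAut K F)} (ν : Normaliser S)

theorem lc_ne_zero {f : F} (hf : f ≠ 0) : ν.lc f ≠ 0 := (map_ne_zero ν.lc).2 hf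

/-- the normalised multiple `f / lc f` -/
def normalise (f : F) : F := f * (algebraMap K F (ν.lc f))⁻¹

theorem normalise_ne_zero {f : F} (hf : f ≠ 0) : ν.normalise f ≠ 0 := by
  unfold normalise
  refine mul_ne_zero hf (inv_ne_zero ?_)
  rw [Ne, map_eq_zero_iff _ (algebraMap K F).injective]
  exact ν.lc_ne_zero hf

theorem lc_normalise {f : F} (hf : f ≠ 0) : ν.lc (ν.normalise f) = 1 := by
  unfold normalise
  rw [map_mul, map_inv₀, ν.lc_algebraMap]
  exact mul_inv_cancel₀ (ν.lc_ne_zero hf)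

/-- a normalised function which is multiplied by a constant is fixed -/
theorem smul_eq_self {g : SemilinearAut K F} (hg : g ∈ S) {f : F} (hlc : ν.lc f = 1) {c : K}
    (h : g • f = algebraMap K F c * f) : g • f = f := by
  have h1 := congrArg ν.lc h
  rw [ν.lc_smul g hg, hlc, map_one, map_mul, ν.lc_algebraMap, hlc, mul_one] at h1
  rw [h, ← h1, map_one, one_mul]

/-- a fixed function has a fixed leading coefficient -/
theorem baseAut_lc_of_fixed {g : SemilinearAut K F} (hg : g ∈ S) {f : F} (h : g • f = f) :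
    SemilinearAut.baseAut g (ν.lc f) = ν.lc f := by
  rw [← ν.lc_smul g hg, h]

/-- if `g` multiplies `f` by a constant then it fixes `f / lc f` -/
theorem smul_normalise {g : SemilinearAut K F} (hg : g ∈ S) {f : F} (hf : f ≠ 0) {c : K}
    (h : g • f = algebraMap K F c * f) : g • ν.normalise f = ν.normalise f := by
  have hcf : ν.lc f ≠ 0 := ν.lc_ne_zero hf
  have h1 : SemilinearAut.baseAut g (ν.lc f) = c * ν.lc f := by
    rw [← ν.lc_smul g hg, h, map_mul, ν.lc_algebraMap]
  have hc : c ≠ 0 := by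
    rintro rfl
    rw [zero_mul] at h1
    exact hcf ((map_eq_zero_iff _ (SemilinearAut.baseAut g).injective).1 h1)
  have hcF : algebraMap K F c ≠ 0 := by
    rw [Ne, map_eq_zero_iff _ (algebraMap K F).injective]; exact hc
  have hlF : algebraMap K F (ν.lc f) ≠ 0 := by
    rw [Ne, map_eq_zero_iff _ (algebraMap K F).injective]; exact hcf
  unfold normalise
  rw [smul_mul', smul_inv'', SemilinearAut.smul_algebraMap, h1, h, map_mul, mul_inv]
  field_simp

end Normaliser

section Const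

variable (hconst : ∀ f : F, (∀ v : Place K F, v.ord f = 0) → ∃ c : K, f = algebraMap K F c)

include hconst in
/-- two nonzero functions with the same divisor differ by a constant -/
theorem exists_const_mul_of_ord_eq {f f' : F} (hf : f ≠ 0) (hf' : f' ≠ 0)
    (h : ∀ v : Place K F, v.ord f' = v.ord f) : ∃ c : K, f' = algebraMap K F c * f := by
  obtain ⟨c, hc⟩ := hconst (f' * f⁻¹) (fun v => by
    rw [Place.ord_mul _ hf' (inv_ne_zero hf), Place.ord_inv, h v]; ring)
  exact ⟨c, by rw [← hc, inv_mul_cancel_right₀ hf]⟩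

include hconst in
/-- **an invariant principal divisor has a fixed generator** (unique up to a constant):
if `div (g • f) = div f` for every `g ∈ S` then `f / lc f` is fixed by `S`. -/
theorem exists_fixed_generator {S : Set (SemilinearAut K F)} (ν : Normaliser S) {f : F}
    (hf : f ≠ 0) (hdiv : ∀ g ∈ S, ∀ v : Place K F, v.ord (g • f) = v.ord f) :
    ∃ c : K, c ≠ 0 ∧ (∀ g ∈ S, g • (algebraMap K F c * f) = algebraMap K F c * f) ∧
      ν.lc (algebraMap K F c * f) = 1 := by
  have hcf : ν.lc f ≠ 0 := ν.lc_ne_zero hf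
  have e : algebraMap K F (ν.lc f)⁻¹ * f = ν.normalise f := by
    unfold Normaliser.normalise
    rw [map_inv₀, mul_comm]
  refine ⟨(ν.lc f)⁻¹, inv_ne_zero hcf, fun g hg => ?_, ?_⟩
  · have hgf : g • f ≠ 0 := by
      rw [SemilinearAut.smul_def]
      exact (map_ne_zero_iff _ (SemilinearAut.toRingAut g).injective).2 hf
    obtain ⟨c, hc⟩ := exists_const_mul_of_ord_eq hconst hf hgf (hdiv g hg)
    rw [e]
    exact ν.smul_normalise hg hf hc
  · rw [e]
    exact ν.lc_normalise hf

end Const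

/-! ### (A2) generic -/

section Descent

variable [FiniteResidues K F] [HasPrincipalDivisors K F] [Nonempty (Place K F)]

/-- **(A2) generic: descent of an invariant Kummer class to an invariant function.** -/
theorem exists_fixed_rep (m : ℕ) [NeZero m]
    (h0 : Module.finrank K (riemannRochSpace (0 : Divisor K F)) = 1)
    (hconst : ∀ f : F, (∀ v : Place K F, v.ord f = 0) → ∃ c : K, f = algebraMap K F c)
    (hroot : ∀ c : K, ∃ d : K, d ^ m = c)
    (P : Place K F) (hP : P.deg = 1)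
    (S : Set (SemilinearAut K F)) (hSP : ∀ g ∈ S, g • P = P) (ν : Normaliser S)
    {u₀ : F} (hu₀ : u₀ ≠ 0) (hdiv₀ : ∀ v : Place K F, (m : ℤ) ∣ v.ord u₀)
    (hx : ∀ g ∈ S, ∃ (c : K) (w : F), c ≠ 0 ∧ w ≠ 0 ∧ g • u₀ = algebraMap K F c * u₀ * w ^ m) :
    ∃ w : F, w ≠ 0 ∧ (∀ g ∈ S, g • (u₀ * w ^ m) = u₀ * w ^ m) ∧ ν.lc (u₀ * w ^ m) = 1 ∧
      ∃ (n : ℕ) (E : Divisor K F), n ≤ genusFF K F ∧ 0 ≤ E ∧ Divisor.degree E = n ∧
        (∀ g ∈ S, g • E = E) ∧
        ∀ v : Place K F, v.ord (u₀ * w ^ m) =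
          (m : ℤ) * (E - Finsupp.single P (n : ℤ) : Divisor K F) v := by
  classical
  have hm : m ≠ 0 := NeZero.ne m
  have hm' : (m : ℤ) ≠ 0 := Int.natCast_ne_zero.2 hm
  -- the unit and its class
  set U₀ : pDivUnits K F m := ⟨Units.mk0 u₀ hu₀, fun v => hdiv₀ v⟩ with hU₀
  have hU₀coe : ((U₀ : Fˣ) : F) = u₀ := rfl
  set c₀ : Pic0 K F := Pic0.mk ⟨divDiv m U₀, degree_divDiv m U₀⟩ with hc₀
  -- the class is `S`-fixed
  have hcfix : ∀ g ∈ S, g • c₀ = c₀ := by
    intro g hg
    obtain ⟨c, w, hc, hw, hgw⟩ := hx g hg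
    rw [hc₀, smul_mk, mk_eq_mk_iff]
    refine ⟨w⁻¹, inv_ne_zero hw, fun v => ?_⟩
    show (divDiv m U₀ - g • divDiv m U₀ : Divisor K F) v = v.ord w⁻¹
    rw [← divDiv_smulDiv]
    apply mul_left_cancel₀ hm'
    rw [Finsupp.sub_apply, mul_sub, mul_divDiv_apply, mul_divDiv_apply, coe_smulDiv, hU₀coe, hgw,
      Place.ord_inv]
    have hcF : algebraMap K F c ≠ 0 := by
      rw [Ne, map_eq_zero_iff _ (algebraMap K F).injective]; exact hc
    rw [Place.ord_mul _ (mul_ne_zero hcF hu₀) (pow_ne_zero _ hw), Place.ord_mul _ hcF hu₀,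
      PlaceB.ord_algebraMap v hc, ← zpow_natCast, Place.ord_zpow]
    ring
  obtain ⟨n, hn, E, hE, hdeg, hstab, h, hcE⟩ := exists_stable_rep h0 P hP c₀
  rw [hc₀, mk_eq_mk_iff] at hcE
  obtain ⟨g₁, hg₁, hg₁D⟩ := hcE
  -- first twist: prescribed divisor
  have hord₁ : ∀ v : Place K F, v.ord (u₀ * g₁ ^ m) =
      (m : ℤ) * (E - Finsupp.single P (n : ℤ) : Divisor K F) v := by
    intro v
    have h1 := hg₁D v
    change (E - Finsupp.single P (n : ℤ) : Divisor K F) v - divDiv m U₀ v = v.ord g₁ at h1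
    rw [Place.ord_mul _ hu₀ (pow_ne_zero _ hg₁), ← zpow_natCast, Place.ord_zpow, ← h1, mul_sub,
      mul_divDiv_apply, hU₀coe]
    ring
  -- second twist: leading coefficient one
  have hu₁0 : u₀ * g₁ ^ m ≠ 0 := mul_ne_zero hu₀ (pow_ne_zero _ hg₁)
  have ha : ν.lc (u₀ * g₁ ^ m) ≠ 0 := ν.lc_ne_zero hu₁0
  obtain ⟨d, hd⟩ := hroot (ν.lc (u₀ * g₁ ^ m))⁻¹
  have hd0 : d ≠ 0 := by
    rintro rfl
    rw [zero_pow hm] at hd
    exact inv_ne_zero ha hd.symm
  have hd0' : algebraMap K F d ≠ 0 := by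
    rw [Ne, map_eq_zero_iff _ (algebraMap K F).injective]; exact hd0
  have hw0 : g₁ * algebraMap K F d ≠ 0 := mul_ne_zero hg₁ hd0'
  have hform : u₀ * (g₁ * algebraMap K F d) ^ m = algebraMap K F (d ^ m) * (u₀ * g₁ ^ m) := by
    rw [map_pow]; ring
  have hord : ∀ v : Place K F, v.ord (u₀ * (g₁ * algebraMap K F d) ^ m) =
      (m : ℤ) * (E - Finsupp.single P (n : ℤ) : Divisor K F) v := by
    intro v
    have hdm : algebraMap K F (d ^ m) ≠ 0 := by
      rw [map_pow]; exact pow_ne_zero _ hd0'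
    rw [hform, Place.ord_mul _ hdm hu₁0, PlaceB.ord_algebraMap v (pow_ne_zero _ hd0), zero_add,
      hord₁ v]
  have hlc : ν.lc (u₀ * (g₁ * algebraMap K F d) ^ m) = 1 := by
    rw [hform, map_mul, ν.lc_algebraMap, hd]
    exact inv_mul_cancel₀ ha
  have hEfix : ∀ g ∈ S, g • E = E := fun g hg => hstab g (hSP g hg) (hcfix g hg)
  refine ⟨g₁ * algebraMap K F d, hw0, fun g hg => ?_, hlc, n, E, hn, hE, hdeg, hEfix, hord⟩
  -- `g • u` and `u` have the same divisor
  set u : F := u₀ * (g₁ * algebraMap K F d) ^ m with hu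
  have hu0 : u ≠ 0 := mul_ne_zero hu₀ (pow_ne_zero _ hw0)
  have hgu0 : g • u ≠ 0 := by
    rw [SemilinearAut.smul_def]
    exact (map_ne_zero_iff _ (SemilinearAut.toRingAut g).injective).2 hu0
  have hsame : ∀ v : Place K F, v.ord (g • u) = v.ord u := by
    intro v
    rw [Fermat.Agent.GJ.Kum.GalDiv.ord_smul_eq, hord, hord]
    congr 1
    have hE' : g⁻¹ • E = E := by
      conv_lhs => rw [← hEfix g hg]
      rw [inv_smul_smul]
    have hP' : g⁻¹ • P = P := by
      conv_lhs => rw [← hSP g hg]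
      rw [inv_smul_smul]
    have h1 : (E - Finsupp.single P (n : ℤ) : Divisor K F) (g⁻¹ • v) =
        (g • (E - Finsupp.single P (n : ℤ) : Divisor K F)) v := by
      rw [SemilinearAut.divisor_smul_apply]
    rw [h1, smul_sub, hEfix g hg, SemilinearAut.smul_single, hSP g hg]
  obtain ⟨c, hc⟩ := exists_const_mul_of_ord_eq hconst hu0 hgu0 hsame
  exact ν.smul_eq_self hg hlc hc

end Descent

/-! ### The second binder: `δ f = f · c₁ · m₁ ^ m` with fixed factors -/

section Factor

/-- `δ` commuting with `S`, `f` `S`-fixed, `δ f = f · n ^ m` ⟹ `n / lc n` is `S`-fixed and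
`δ f = f · c₁ · (n / lc n) ^ m` with the `S`-fixed constant `c₁ = (lc n) ^ m`. -/
theorem exists_fixed_factor (m : ℕ) [NeZero m]
    (hconst : ∀ f : F, (∀ v : Place K F, v.ord f = 0) → ∃ c : K, f = algebraMap K F c)
    (S : Set (SemilinearAut K F)) (ν : Normaliser S)
    (δ : F ≃+* F) (hδS : ∀ g ∈ S, ∀ y : F, g • δ y = δ (g • y))
    {f n : F} (hf : f ≠ 0) (hn : n ≠ 0) (hfix : ∀ g ∈ S, g • f = f) (hδf : δ f = f * n ^ m) :
    ∃ (c₁ : K) (m₁ : F), c₁ ≠ 0 ∧ m₁ ≠ 0 ∧ δ f = f * algebraMap K F c₁ * m₁ ^ m ∧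
      (∀ g ∈ S, g • m₁ = m₁) ∧ (∀ g ∈ S, SemilinearAut.baseAut g c₁ = c₁) ∧
      n = algebraMap K F (ν.lc n) * m₁ ∧ c₁ = ν.lc n ^ m := by
  have hm : m ≠ 0 := NeZero.ne m
  have hm' : (m : ℤ) ≠ 0 := Int.natCast_ne_zero.2 hm
  have hcn : ν.lc n ≠ 0 := ν.lc_ne_zero hn
  have hlF : algebraMap K F (ν.lc n) ≠ 0 := by
    rw [Ne, map_eq_zero_iff _ (algebraMap K F).injective]; exact hcn
  -- `n ^ m` is fixed
  have hnm : ∀ g ∈ S, g • (n ^ m) = n ^ m := by
    intro g hg
    have h1 : g • δ f = g • (f * n ^ m) := by rw [hδf]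
    rw [hδS g hg, hfix g hg, hδf, smul_mul', hfix g hg] at h1
    exact (mul_left_cancel₀ hf h1).symm
  -- `g • n` is a constant multiple of `n`
  have hgn : ∀ g ∈ S, ∃ c : K, g • n = algebraMap K F c * n := by
    intro g hg
    have hgn0 : g • n ≠ 0 := by
      rw [SemilinearAut.smul_def]
      exact (map_ne_zero_iff _ (SemilinearAut.toRingAut g).injective).2 hn
    refine exists_const_mul_of_ord_eq hconst hn hgn0 (fun v => ?_)
    have h1 : v.ord ((g • n) ^ m) = v.ord (n ^ m) := by rw [← smul_pow', hnm g hg]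
    rw [← zpow_natCast, ← zpow_natCast, Place.ord_zpow, Place.ord_zpow] at h1
    exact mul_left_cancel₀ hm' h1
  have hm₁ : ∀ g ∈ S, g • ν.normalise n = ν.normalise n := by
    intro g hg
    obtain ⟨c, hc⟩ := hgn g hg
    exact ν.smul_normalise hg hn hc
  have hnform : n = algebraMap K F (ν.lc n) * ν.normalise n := by
    unfold Normaliser.normalise
    rw [mul_comm n, mul_inv_cancel_left₀ hlF]
  refine ⟨ν.lc n ^ m, ν.normalise n, pow_ne_zero _ hcn, ν.normalise_ne_zero hn, ?_, hm₁, ?_,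
    hnform, rfl⟩
  · rw [hδf, map_pow]
    conv_lhs => rw [hnform]
    ring
  · intro g hg
    rw [← map_pow ν.lc]
    exact ν.baseAut_lc_of_fixed hg (hnm g hg)

end Factor

end Fermat.Agent.GF.KumDesc.Generic
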