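/-
GATE-F (S40) / node GF-KUM-DESC, file 2 (helper19): **the normaliser of a fixed uniformiser.**

`F / K` any field extension, `P` a place of degree one, `t` a function with `ord_P t = 1`.
`lcAt P t f := (f · t ^ (−ord_P f))(P)`, the leading coefficient of the `t`-expansion of `f` at
`P`.  It is multiplicative, the identity on the constants, and equivariant for every semilinear
automorphism fixing `P` and `t`: a `Generic.Normaliser` for every such set of automorphisms.

For the Kummer cover `F' = F(G)` of `GATE-F`: `P` := a place above the cusp `∞` fixed by `I'`,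
`t := 1 / j` (width one, and the cover is unramified).
-/
import Fermat.Agent.GF.KumDesc.Generic
import Fermat.Agent.GR.H.PlaceVal

set_option autoImplicit false

noncomputable section

open AlgebraicCurve

namespace Fermat.Agent.GF.KumDesc.Norm

open Fermat.Agent.GR.H.PlaceVal Fermat.Agent.S24 Fermat.Agent.GF.KumDesc.Generic

variable {K F : Type*} [Field K] [Field F] [Algebra K F]

/-- the leading coefficient of `f` at `P` with respect to the uniformiser `t` -/
def lcAt (P : Place K F) (t : F) (f : F) : K := valOf P (f * t ^ (-(P.ord f)))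

variable {P : Place K F} (hP : P.deg = 1) {t : F} (ht : P.ord t = 1)

include ht in
theorem t_ne_zero : t ≠ 0 := by
  rintro rfl
  rw [Place.ord_zero] at ht
  exact zero_ne_one ht

include ht in
/-- `f · t ^ (−ord f)` is a unit at `P` -/
theorem ord_mul_zpow {f : F} (hf : f ≠ 0) : P.ord (f * t ^ (-(P.ord f))) = 0 := by
  rw [Place.ord_mul _ hf (zpow_ne_zero _ (t_ne_zero ht)), Place.ord_zpow, ht]
  ring

include ht in
theorem mul_zpow_ne_zero {f : F} (hf : f ≠ 0) : f * t ^ (-(P.ord f)) ≠ 0 :=
  mul_ne_zero hf (zpow_ne_zero _ (t_ne_zero ht))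

include ht in
theorem mul_zpow_mem {f : F} (hf : f ≠ 0) : f * t ^ (-(P.ord f)) ∈ P.toValuationSubring :=
  (PlaceB.ord_nonneg_iff P (mul_zpow_ne_zero ht hf)).mp (ord_mul_zpow ht hf).ge

theorem lcAt_zero (P : Place K F) (t : F) : lcAt P t 0 = 0 := by
  unfold lcAt
  rw [zero_mul, valOf_zero]

include hP ht in
theorem lcAt_ne_zero {f : F} (hf : f ≠ 0) : lcAt P t f ≠ 0 :=
  valOf_ne_zero_of_ord_eq_zero hP (mul_zpow_ne_zero ht hf) (ord_mul_zpow ht hf)

include hP ht in
theorem lcAt_mul (f g : F) : lcAt P t (f * g) = lcAt P t f * lcAt P t g := by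
  rcases eq_or_ne f 0 with rfl | hf
  · rw [zero_mul, lcAt_zero, zero_mul]
  rcases eq_or_ne g 0 with rfl | hg
  · rw [mul_zero, lcAt_zero, mul_zero]
  unfold lcAt
  rw [← valOf_mul hP (mul_zpow_mem ht hf) (mul_zpow_mem ht hg), Place.ord_mul _ hf hg, neg_add,
    zpow_add₀ (t_ne_zero ht)]
  congr 1
  ring

theorem lcAt_algebraMap (P : Place K F) (t : F) (c : K) : lcAt P t (algebraMap K F c) = c := by
  rcases eq_or_ne c 0 with rfl | hc
  · rw [map_zero, lcAt_zero]
  unfold lcAt
  rw [PlaceB.ord_algebraMap P hc, neg_zero, zpow_zero, mul_one, valOf_algebraMap]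

theorem lcAt_one (P : Place K F) (t : F) : lcAt P t 1 = 1 := by
  have := lcAt_algebraMap P t (1 : K)
  rwa [map_one] at this

/-- the leading coefficient as a monoid-with-zero homomorphism -/
def lcHom (P : Place K F) (hP : P.deg = 1) (t : F) (ht : P.ord t = 1) : F →*₀ K where
  toFun := lcAt P t
  map_zero' := lcAt_zero P t
  map_one' := lcAt_one P t
  map_mul' := lcAt_mul hP ht

@[simp] theorem lcHom_apply (f : F) : lcHom P hP t ht f = lcAt P t f := rfl

/-- equivariance for a semilinear automorphism fixing `P` and `t` -/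
theorem lcAt_smul (g : SemilinearAut K F) (hgP : g • P = P) (hgt : g • t = t) (f : F) :
    lcAt P t (g • f) = SemilinearAut.baseAut g (lcAt P t f) := by
  unfold lcAt
  have hord : P.ord (g • f) = P.ord f := by
    have h := SemilinearAut.ord_smul g P f
    rwa [hgP] at h
  have h1 : g • f * t ^ (-(P.ord f)) = g • (f * t ^ (-(P.ord f))) := by
    rw [smul_mul', SemilinearAut.smul_def g (t ^ (-(P.ord f))), map_zpow₀,
      ← SemilinearAut.smul_def, hgt]
  rw [hord, h1]
  have h2 := valOf_smulAut g P (f * t ^ (-(P.ord f)))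
  rwa [hgP] at h2

/-- **the normaliser of a fixed place of degree one with a fixed uniformiser** -/
def normaliser (P : Place K F) (hP : P.deg = 1) (t : F) (ht : P.ord t = 1)
    (S : Set (SemilinearAut K F)) (hSP : ∀ g ∈ S, g • P = P) (hSt : ∀ g ∈ S, g • t = t) :
    Normaliser S where
  lc := lcHom P hP t ht
  lc_algebraMap := lcAt_algebraMap P t
  lc_smul := fun g hg f => lcAt_smul g (hSP g hg) (hSt g hg) f

end Fermat.Agent.GF.KumDesc.Norm
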