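/-
GATE-F (S40) / node GF-KUM-DESC, file 3 (helper19): **the binders `f a u h hf` and `c₁ m hδf` of
the cover frame (`GF/KCover/Frame.CoverFrame`, helper31) from the generic descent.**

`F'` the function field of the Kummer cover over `K = ℚ̄` (Riemann–Roch package), `Γ = I'` acting
on `F'` through semilinear automorphisms `act ρ` (`hact : ρ • y = act ρ • y`), `C` the constants
(`hC : y ∈ C ↔ y ∈ range (algebraMap K F')`), `P` a place of degree one fixed by `Γ` with a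
normaliser `ν` (file `Norm.lean`: a fixed uniformiser is enough).

`u ∈ F = F'^δ` the Kummer function of `x` (`p ∣ div_{F'} u`), with the unit form
`ρ • u = b · u · G ^ (p κ(ρ)) · h_ρ ^ p` of `ρ x − x = κ(ρ) w₀` (the binder `hκ` of
`CoverFrame.dvd_val_c₁`).  Then:

* `exists_frame_binders` : `∃ f c₁ m : fixedUnits Γ F'`, `∃ h`, `f = 1 · u · h ^ p`,
  `c₁` constant, `Φ.δU f = f * c₁ * m ^ p`;
* `exists_tropical_const` : S4 of GRAPH v1 with the descent binders discharged: only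
  `hκ`, `hpeu` and the node relation (for every `K'`-rational Kummer function of `π^* x`) remain.
-/
import Fermat.Agent.GF.KumDesc.Norm
import Fermat.Agent.GF.KCover.Frame

set_option autoImplicit false

noncomputable section

open AlgebraicCurve

namespace Fermat.Agent.GF.KumDesc.Cover

open Fermat.Agent.GF.KumDesc.Generic Fermat.Agent.GF.KCover Fermat.Agent.RRh45

variable {K F' : Type*} [Field K] [Field F'] [Algebra K F']
  {Γ : Type*} [Group Γ] [MulSemiringAction Γ F'] {C : Subfield F'} {p : ℕ}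

section Binders

variable [FiniteResidues K F'] [HasPrincipalDivisors K F'] [Nonempty (Place K F')]

/-- **the descent binders of the cover frame.** -/
theorem exists_frame_binders [NeZero p] (Φ : CoverFrame p Γ F' C)
    (h0 : Module.finrank K (riemannRochSpace (0 : Divisor K F')) = 1)
    (hconst : ∀ f : F', (∀ v : Place K F', v.ord f = 0) → ∃ c : K, f = algebraMap K F' c)
    (hroot : ∀ c : K, ∃ d : K, d ^ p = c)
    (hC : ∀ y : F', y ∈ C ↔ ∃ c : K, y = algebraMap K F' c)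
    (act : Γ → SemilinearAut K F') (hact : ∀ (ρ : Γ) (y : F'), ρ • y = act ρ • y)
    (P : Place K F') (hP : P.deg = 1) (hΓP : ∀ ρ : Γ, act ρ • P = P)
    (ν : Normaliser (Set.range act))
    {u : F'} (hu0 : u ≠ 0) (hdiv : ∀ v : Place K F', (p : ℤ) ∣ v.ord u) (hδu : Φ.δ u = u)
    (hinv : ∀ ρ : Γ, ∃ b w : F', b ∈ C ∧ b ≠ 0 ∧ w ≠ 0 ∧ ρ • u = b * u * w ^ p) :
    ∃ (f c₁ m : fixedUnits Γ F') (h : F'), h ≠ 0 ∧ ((c₁ : F'ˣ) : F') ∈ C ∧
      ((f : F'ˣ) : F') = 1 * u * h ^ p ∧ Φ.δU f = f * c₁ * m ^ p := by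
  have hSP : ∀ g ∈ Set.range act, g • P = P := by
    rintro g ⟨ρ, rfl⟩; exact hΓP ρ
  have hx : ∀ g ∈ Set.range act, ∃ (c : K) (w : F'), c ≠ 0 ∧ w ≠ 0 ∧
      g • u = algebraMap K F' c * u * w ^ p := by
    rintro g ⟨ρ, rfl⟩
    obtain ⟨b, w, hb, hb0, hw, h⟩ := hinv ρ
    obtain ⟨c, rfl⟩ := (hC b).1 hb
    refine ⟨c, w, ?_, hw, ?_⟩
    · rintro rfl
      exact hb0 (map_zero _)
    · rw [← hact, h]
  obtain ⟨w, hw0, hfix, -, -⟩ :=
    exists_fixed_rep p h0 hconst hroot P hP (Set.range act) hSP ν hu0 hdiv hx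
  have hf0 : u * w ^ p ≠ 0 := mul_ne_zero hu0 (pow_ne_zero _ hw0)
  have hδw0 : Φ.δ w ≠ 0 := (map_ne_zero_iff _ Φ.δ.injective).2 hw0
  have hn0 : Φ.δ w / w ≠ 0 := div_ne_zero hδw0 hw0
  have hδf : Φ.δ (u * w ^ p) = u * w ^ p * (Φ.δ w / w) ^ p := by
    rw [map_mul, map_pow, hδu, div_pow]
    field_simp
  have hδS : ∀ g ∈ Set.range act, ∀ y : F', g • Φ.δ y = Φ.δ (g • y) := by
    rintro g ⟨ρ, rfl⟩ y
    rw [← hact, ← hact, Φ.δ_comm]
  obtain ⟨c₁, m₁, hc₁0, hm₁0, hδf', hm₁fix, hc₁fix, -, -⟩ :=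
    exists_fixed_factor p hconst (Set.range act) ν Φ.δ hδS hf0 hn0 hfix hδf
  have hc₁F : algebraMap K F' c₁ ≠ 0 := by
    rw [Ne, map_eq_zero_iff _ (algebraMap K F').injective]; exact hc₁0
  refine ⟨⟨Units.mk0 _ hf0, fun ρ => ?_⟩, ⟨Units.mk0 _ hc₁F, fun ρ => ?_⟩,
    ⟨Units.mk0 _ hm₁0, fun ρ => ?_⟩, w, hw0, ?_, ?_, ?_⟩
  · rw [Units.val_mk0, hact]
    exact hfix _ ⟨ρ, rfl⟩
  · rw [Units.val_mk0, hact, SemilinearAut.smul_algebraMap, hc₁fix _ ⟨ρ, rfl⟩]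
  · rw [Units.val_mk0, hact]
    exact hm₁fix _ ⟨ρ, rfl⟩
  · exact (hC _).2 ⟨c₁, rfl⟩
  · show u * w ^ p = 1 * u * w ^ p
    rw [one_mul]
  · apply Subtype.ext
    apply Units.ext
    show Φ.δ (u * w ^ p) = u * w ^ p * algebraMap K F' c₁ * m₁ ^ p
    exact hδf'

end Binders

section Tropical

variable [FiniteResidues K F'] [HasPrincipalDivisors K F'] [Nonempty (Place K F')]

/-- **S4 of GRAPH v1 with the descent binders discharged.**  What remains: the unit form `hκ` of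
`ρ x − x = κ(ρ) w₀`, peu ramifié `hpeu`, and the node relation for every `K'`-rational Kummer
function `f'` of `π^* x`. -/
theorem exists_tropical_const [Fact p.Prime] (Φ : CoverFrame p Γ F' C)
    (h0 : Module.finrank K (riemannRochSpace (0 : Divisor K F')) = 1)
    (hconst : ∀ f : F', (∀ v : Place K F', v.ord f = 0) → ∃ c : K, f = algebraMap K F' c)
    (hroot : ∀ c : K, ∃ d : K, d ^ p = c)
    (hC : ∀ y : F', y ∈ C ↔ ∃ c : K, y = algebraMap K F' c)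
    (act : Γ → SemilinearAut K F') (hact : ∀ (ρ : Γ) (y : F'), ρ • y = act ρ • y)
    (P : Place K F') (hP : P.deg = 1) (hΓP : ∀ ρ : Γ, act ρ • P = P)
    (ν : Normaliser (Set.range act))
    {u : F'} (hu0 : u ≠ 0) (hdiv : ∀ v : Place K F', (p : ℤ) ∣ v.ord u) (hδu : Φ.δ u = u)
    (κ : Γ → ℕ)
    (hκ : ∀ ρ : Γ, ∃ b hr : F', b ∈ C ∧ b ≠ 0 ∧ Φ.δ hr = hr ∧ hr ≠ 0 ∧
      ρ • u = b * u * Φ.G ^ (p * κ ρ) * hr ^ p)
    (hpeu : ∀ c : fixedUnits Γ F', ((c : F'ˣ) : F') ∈ C → ∀ t ∈ C, t ^ p = ((c : F'ˣ) : F') →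
      (∀ ρ : Γ, ρ • t * Φ.ζ ^ κ ρ = t) → (p : ℤ) ∣ Φ.vK c)
    {ι : Type*} (as bs : ι → ZMod p) (e : ι → ℤ) (mx : ι → ZMod p)
    (hnode : ∀ f : fixedUnits Γ F', (∃ h : F', h ≠ 0 ∧ ((f : F'ˣ) : F') = 1 * u * h ^ p) →
      ∃ n : ι → ZMod p → ℤ,
        (∀ s j, Φ.w₂ (j + bs s) f - Φ.w₁ (j + as s) f = e s * n s j) ∧
        ∀ s j, ((n s j : ℤ) : ZMod p) = mx s) :
    ∃ Cst : ZMod p, ∀ s, ((e s : ℤ) : ZMod p) * mx s = Cst := by
  have hp : p.Prime := Fact.out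
  have : NeZero p := ⟨hp.ne_zero⟩
  have hinv : ∀ ρ : Γ, ∃ b w : F', b ∈ C ∧ b ≠ 0 ∧ w ≠ 0 ∧ ρ • u = b * u * w ^ p := by
    intro ρ
    obtain ⟨b, hr, hb, hb0, -, hhr0, h⟩ := hκ ρ
    refine ⟨b, Φ.G ^ κ ρ * hr, hb, hb0, mul_ne_zero (pow_ne_zero _ Φ.G_ne_zero) hhr0, ?_⟩
    rw [h, mul_pow, ← pow_mul, mul_comm (κ ρ) p]
    ring
  obtain ⟨f, c₁, m, h, hh0, hc₁, hf, hδf⟩ :=
    exists_frame_binders Φ h0 hconst hroot hC act hact P hP hΓP ν hu0 hdiv hδu hinv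
  obtain ⟨n, hnode', hn⟩ := hnode f ⟨h, hh0, hf⟩
  exact Φ.exists_tropical_const (C.one_mem) one_ne_zero hu0 hh0 hc₁ hδu hf hδf κ hκ hpeu
    as bs e n hnode' mx hn

end Tropical

end Fermat.Agent.GF.KumDesc.Cover
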