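/-
GATE-F (S40) / node GF-KUM-DESC, file 4 (helper19): **pull-back of `m`-divisible divisors to an
extension of function fields, and the descent theorems over an algebraically closed constant
field of characteristic zero** (all Riemann–Roch hypotheses discharged from `S24.IsGen`).

* `ordVal v`                  : the order function of a place as an `S24.IntVal`;
* `dvd_ord_map`               : `φ : F →ₐ[K] F'`, `u ∈ F` with `m ∣ ord_v u` at every place `v` of
  `F` ⟹ `m ∣ ord_{v'} (φ u)` at every place `v'` of `F'` (the restriction of `v'` to `F` is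
  trivial or a positive multiple of a place of `F`);
* `Closed.exists_fixed_rep`, `Closed.exists_frame_binders`, `Closed.exists_tropical_const` :
  the theorems of `Generic.lean` / `Cover.lean` for `K` algebraically closed of characteristic
  zero and `F'` with a generator `x` (`S24.IsGen K x`; for the Kummer cover `x := j`).
-/
import Fermat.Agent.GF.KumDesc.Cover
import Fermat.Agent.GJ.FF.Instances
import Fermat.Agent.RR.CharZero
import Fermat.Agent.GK.GenusFF

set_option autoImplicit false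

noncomputable section

open AlgebraicCurve

namespace Fermat.Agent.GF.KumDesc.Pullback

open Fermat.Agent.S24 Fermat.Agent.RRh45 Fermat.Agent.GF.KumDesc.Generic Fermat.Agent.GF.KCover

section Ord

variable {K F F' : Type*} [Field K] [Field F] [Field F'] [Algebra K F] [Algebra K F']

/-- the order function of a place, as an `IntVal` -/
def ordVal (v : Place K F) : IntVal K F where
  toFun := v.ord
  map_mul' hf hg := v.ord_mul hf hg
  map_add' hf hg hfg := PlaceB.ord_add_ge v hf hg hfg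
  map_algebraMap' _ hc := PlaceB.ord_algebraMap v hc

@[simp] theorem ordVal_apply (v : Place K F) (f : F) : ordVal v f = v.ord f := rfl

/-- **pull-back of `m`-divisibility of the divisor** -/
theorem dvd_ord_map (φ : F →ₐ[K] F') (m : ℤ) {u : F} (hu : u ≠ 0)
    (h : ∀ v : Place K F, m ∣ v.ord u) (v' : Place K F') : m ∣ v'.ord (φ u) := by
  set w : IntVal K F := IntVal.comap φ (ordVal v') with hw
  have hwu : v'.ord (φ u) = w u := rfl
  by_cases hnt : w.IsNontrivial
  · rw [hwu, IntVal.eq_mult_mul_ord hnt hu]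
    exact Dvd.dvd.mul_left (h _) _
  · have h0 : w u = 0 := by
      by_contra h1
      exact hnt ⟨u, hu, h1⟩
    rw [hwu, h0]
    exact dvd_zero m

end Ord

/-! ### Algebraically closed constants of characteristic zero -/

namespace Closed

variable {K F' : Type*} [Field K] [Field F'] [Algebra K F'] [IsAlgClosed K] [CharZero K]

/-- **(A2) generic**, for `K` algebraically closed of characteristic zero. -/
theorem exists_fixed_rep (x : F') [IsGen K x] (m : ℕ) [NeZero m]
    (P : Place K F') (S : Set (SemilinearAut K F')) (hSP : ∀ g ∈ S, g • P = P)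
    (ν : Normaliser S) {u₀ : F'} (hu₀ : u₀ ≠ 0) (hdiv₀ : ∀ v : Place K F', (m : ℤ) ∣ v.ord u₀)
    (hx : ∀ g ∈ S, ∃ (c : K) (w : F'), c ≠ 0 ∧ w ≠ 0 ∧
      g • u₀ = algebraMap K F' c * u₀ * w ^ m) :
    ∃ w : F', w ≠ 0 ∧ (∀ g ∈ S, g • (u₀ * w ^ m) = u₀ * w ^ m) ∧ ν.lc (u₀ * w ^ m) = 1 := by
  have := Fermat.Agent.RR.CharZero.finiteResidues (K := K) x
  have := FF1.hasPrincipalDivisors (K := K) x
  have := Fermat.Agent.RR.CharZero.nonempty_place (K := K) x
  obtain ⟨w, hw, hfix, hlc, -⟩ := Generic.exists_fixed_rep m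
    (Fermat.Agent.GK.GenusFF.finrank_L_zero_eq_one (K := K) x)
    (fun f hf => Fermat.Agent.GJ.FF.Fibre.exists_const_of_forall_ord_eq_zero' x hf)
    (fun c => IsAlgClosed.exists_pow_nat_eq c (Nat.pos_of_ne_zero (NeZero.ne m)))
    P (PlaceB.deg_eq_one P x) S hSP ν hu₀ hdiv₀ hx
  exact ⟨w, hw, hfix, hlc⟩

variable {Γ : Type*} [Group Γ] [MulSemiringAction Γ F'] {C : Subfield F'} {p : ℕ}

/-- **the descent binders of the cover frame**, for `K` algebraically closed of characteristic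
zero. -/
theorem exists_frame_binders (x : F') [IsGen K x] [NeZero p] (Φ : CoverFrame p Γ F' C)
    (hC : ∀ y : F', y ∈ C ↔ ∃ c : K, y = algebraMap K F' c)
    (act : Γ → SemilinearAut K F') (hact : ∀ (ρ : Γ) (y : F'), ρ • y = act ρ • y)
    (P : Place K F') (hΓP : ∀ ρ : Γ, act ρ • P = P) (ν : Normaliser (Set.range act))
    {u : F'} (hu0 : u ≠ 0) (hdiv : ∀ v : Place K F', (p : ℤ) ∣ v.ord u) (hδu : Φ.δ u = u)
    (hinv : ∀ ρ : Γ, ∃ b w : F', b ∈ C ∧ b ≠ 0 ∧ w ≠ 0 ∧ ρ • u = b * u * w ^ p) :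
    ∃ (f c₁ m : fixedUnits Γ F') (h : F'), h ≠ 0 ∧ ((c₁ : F'ˣ) : F') ∈ C ∧
      ((f : F'ˣ) : F') = 1 * u * h ^ p ∧ Φ.δU f = f * c₁ * m ^ p := by
  have := Fermat.Agent.RR.CharZero.finiteResidues (K := K) x
  have := FF1.hasPrincipalDivisors (K := K) x
  have := Fermat.Agent.RR.CharZero.nonempty_place (K := K) x
  exact Cover.exists_frame_binders Φ
    (Fermat.Agent.GK.GenusFF.finrank_L_zero_eq_one (K := K) x)
    (fun f hf => Fermat.Agent.GJ.FF.Fibre.exists_const_of_forall_ord_eq_zero' x hf)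
    (fun c => IsAlgClosed.exists_pow_nat_eq c (Nat.pos_of_ne_zero (NeZero.ne p)))
    hC act hact P (PlaceB.deg_eq_one P x) hΓP ν hu0 hdiv hδu hinv

/-- **S4 of GRAPH v1 with the descent binders discharged**, for `K` algebraically closed of
characteristic zero. -/
theorem exists_tropical_const (x : F') [IsGen K x] [Fact p.Prime] (Φ : CoverFrame p Γ F' C)
    (hC : ∀ y : F', y ∈ C ↔ ∃ c : K, y = algebraMap K F' c)
    (act : Γ → SemilinearAut K F') (hact : ∀ (ρ : Γ) (y : F'), ρ • y = act ρ • y)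
    (P : Place K F') (hΓP : ∀ ρ : Γ, act ρ • P = P) (ν : Normaliser (Set.range act))
    {u : F'} (hu0 : u ≠ 0) (hdiv : ∀ v : Place K F', (p : ℤ) ∣ v.ord u) (hδu : Φ.δ u = u)
    (κ : Γ → ℕ)
    (hκ : ∀ ρ : Γ, ∃ b hr : F', b ∈ C ∧ b ≠ 0 ∧ Φ.δ hr = hr ∧ hr ≠ 0 ∧
      ρ • u = b * u * Φ.G ^ (p * κ ρ) * hr ^ p)
    (hpeu : ∀ c : fixedUnits Γ F', ((c : F'ˣ) : F') ∈ C → ∀ t ∈ C, t ^ p = ((c : F'ˣ) : F') →
      (∀ ρ : Γ, ρ • t * Φ.ζ ^ κ ρ = t) → (p : ℤ) ∣ Φ.vK c)
    {ι : Type*} (as bs : ι → ZMod p) (e : ι → ℤ) (mx : ι → ZMod p)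
    (hnode : ∀ f : fixedUnits Γ F', (∃ h : F', h ≠ 0 ∧ ((f : F'ˣ) : F') = 1 * u * h ^ p) →
      ∃ n : ι → ZMod p → ℤ,
        (∀ s j, Φ.w₂ (j + bs s) f - Φ.w₁ (j + as s) f = e s * n s j) ∧
        ∀ s j, ((n s j : ℤ) : ZMod p) = mx s) :
    ∃ Cst : ZMod p, ∀ s, ((e s : ℤ) : ZMod p) * mx s = Cst := by
  have := Fermat.Agent.RR.CharZero.finiteResidues (K := K) x
  have := FF1.hasPrincipalDivisors (K := K) x
  have := Fermat.Agent.RR.CharZero.nonempty_place (K := K) x
  have hp : p.Prime := Fact.out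
  exact Cover.exists_tropical_const Φ
    (Fermat.Agent.GK.GenusFF.finrank_L_zero_eq_one (K := K) x)
    (fun f hf => Fermat.Agent.GJ.FF.Fibre.exists_const_of_forall_ord_eq_zero' x hf)
    (fun c => IsAlgClosed.exists_pow_nat_eq c hp.pos)
    hC act hact P (PlaceB.deg_eq_one P x) hΓP ν hu0 hdiv hδu κ hκ hpeu as bs e mx hnode

end Closed

end Fermat.Agent.GF.KumDesc.Pullback
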