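/-
GATE-F (S40/S44) / node GF-KUM-DESC, file 5 (helper19): **the fixed place and the normaliser of a
function field embedded in `K((q))`.**

`F / K` any field with a `K`-algebra embedding `ι : F →ₐ[K] K((q))` (for the Kummer cover
`F' = F(G)`, `G ^ p = g₀`: `ι` extends the `q`-expansion of `F` by `G ↦ γ`, `γ ^ p = g₀(q)`, see
`LaurentRoot.lean` for `γ`).  Then

* `qVal ι`, `qPlace ι hq`   : the `q`-adic valuation data and the place `q = 0` of `F`;
* `smul_qPlace`             : a semilinear automorphism `g` with
                              `ι (g • x) = coeffMap (baseAut g) (ι x)` fixes the place;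
* `lcHom ι`                 : the leading coefficient `F →*₀ K`;
* `normaliser ι S hS`       : the `Generic.Normaliser` of a set `S` of coefficientwise
                              automorphisms.
So the two inputs `P`, `ν` of `Cover.exists_frame_binders` come from `ι` and the equivariance `hS`.
-/
import Fermat.Agent.GF.KumDesc.Generic
import Fermat.Agent.GJ.Desc.QPlace

set_option autoImplicit false

noncomputable section

open AlgebraicCurve ModularCurve HahnSeries

namespace Fermat.Agent.GF.KumDesc.Laurent

open Fermat.Agent.S24 Fermat.Agent.GJ.Desc.QP Fermat.Agent.GF.KumDesc.Generic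

variable {K F : Type*} [Field K] [Field F] [Algebra K F] (ι : F →ₐ[K] LaurentSeries K)

theorem map_ne_zero' {f : F} (hf : f ≠ 0) : ι f ≠ 0 :=
  (map_ne_zero_iff _ ι.toRingHom.injective).2 hf

/-- the `q`-adic valuation data on `F` through `ι` -/
def qVal : IntVal K F where
  toFun f := (ι f).order
  map_mul' {f g} hf hg := by
    rw [map_mul]
    exact HahnSeries.order_mul (map_ne_zero' ι hf) (map_ne_zero' ι hg)
  map_add' {f g} _ _ hfg := by
    rw [map_add]
    exact HahnSeries.min_order_le_order_add (by
      rw [← map_add]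
      exact map_ne_zero' ι hfg)
  map_algebraMap' c hc := by
    rw [AlgHom.commutes, algebraMap_laurentSeries_eq_single, HahnSeries.order_single hc]

@[simp] theorem qVal_apply (f : F) : qVal ι f = (ι f).order := rfl

theorem qVal_isNontrivial (hq : ∃ f : F, (ι f).order ≠ 0) : (qVal ι).IsNontrivial := by
  obtain ⟨f, hord⟩ := hq
  refine ⟨f, ?_, hord⟩
  rintro rfl
  rw [map_zero] at hord
  exact hord HahnSeries.order_zero

/-- **the place `q = 0` of `F`** -/
def qPlace (hq : ∃ f : F, (ι f).order ≠ 0) : Place K F :=
  IntVal.placeOf (qVal_isNontrivial ι hq)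

theorem mem_qPlace_iff (hq : ∃ f : F, (ι f).order ≠ 0) (f : F) :
    f ∈ (qPlace ι hq).toValuationSubring ↔ f = 0 ∨ 0 ≤ (ι f).order :=
  Iff.rfl

/-- `order = mult * ord` at the `q`-place -/
theorem order_eq_mult_mul_ord (hq : ∃ f : F, (ι f).order ≠ 0) {f : F} (hf : f ≠ 0) :
    (ι f).order = IntVal.mult (qVal_isNontrivial ι hq) * (qPlace ι hq).ord f :=
  IntVal.eq_mult_mul_ord (qVal_isNontrivial ι hq) hf

/-- if some function has order `±1` the `q`-place is unramified: `ord = order` -/
theorem ord_eq_order (hq : ∃ f : F, (ι f).order ≠ 0) {t : F} (ht : (ι t).order = 1) {f : F}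
    (hf : f ≠ 0) : (qPlace ι hq).ord f = (ι f).order := by
  have ht0 : t ≠ 0 := by
    rintro rfl
    rw [map_zero, HahnSeries.order_zero] at ht
    exact zero_ne_one ht
  have h1 := order_eq_mult_mul_ord ι hq ht0
  rw [ht] at h1
  have hpos := IntVal.mult_pos (qVal_isNontrivial ι hq)
  have hm : IntVal.mult (qVal_isNontrivial ι hq) = 1 := by
    have hdvd : IntVal.mult (qVal_isNontrivial ι hq) ∣ 1 := ⟨_, h1⟩
    exact Int.eq_one_of_dvd_one hpos.le hdvd
  rw [order_eq_mult_mul_ord ι hq hf, hm, one_mul]

/-- **a coefficientwise semilinear automorphism fixes the `q`-place** -/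
theorem smul_qPlace (hq : ∃ f : F, (ι f).order ≠ 0) (g : SemilinearAut K F)
    (hg : ∀ x : F, ι (g • x) = coeffMap (SemilinearAut.baseAut g : K →+* K) (ι x)) :
    g • qPlace ι hq = qPlace ι hq := by
  have hinj : Function.Injective (SemilinearAut.baseAut g : K →+* K) :=
    (SemilinearAut.baseAut g).injective
  have hord : ∀ x : F, (ι (g • x)).order = (ι x).order := fun x => by
    rw [hg x, order_coeffMap hinj]
  have hord' : ∀ x : F, (ι (g⁻¹ • x)).order = (ι x).order := by
    intro x
    have h := hord (g⁻¹ • x)
    rw [smul_inv_smul] at h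
    exact h.symm
  apply Place.ext
  rw [SemilinearAut.smul_toValuationSubring]
  ext x
  rw [ValuationSubring.mem_pointwise_smul_iff_inv_smul_mem, mem_qPlace_iff, mem_qPlace_iff, hord']
  constructor
  · rintro (h | h)
    · left
      have := congrArg (fun y => g • y) h
      simpa using this
    · exact Or.inr h
  · rintro (rfl | h)
    · left
      simp
    · exact Or.inr h

/-- the leading `q`-coefficient -/
def lcHom : F →*₀ K where
  toFun f := (ι f).leadingCoeff
  map_zero' := by rw [map_zero, HahnSeries.leadingCoeff_zero]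
  map_one' := by rw [map_one, HahnSeries.leadingCoeff_one]
  map_mul' f g := by rw [map_mul, HahnSeries.leadingCoeff_mul]

@[simp] theorem lcHom_apply (f : F) : lcHom ι f = (ι f).leadingCoeff := rfl

theorem lcHom_algebraMap (c : K) : lcHom ι (algebraMap K F c) = c := by
  rw [lcHom_apply, AlgHom.commutes, algebraMap_laurentSeries_eq_single]
  exact HahnSeries.leadingCoeff_of_single

/-- **the normaliser of a set of coefficientwise automorphisms** -/
def normaliser (S : Set (SemilinearAut K F))
    (hS : ∀ g ∈ S, ∀ x : F, ι (g • x) = coeffMap (SemilinearAut.baseAut g : K →+* K) (ι x)) :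
    Normaliser S where
  lc := lcHom ι
  lc_algebraMap := lcHom_algebraMap ι
  lc_smul := fun g hg f => by
    rw [lcHom_apply, lcHom_apply, hS g hg f,
      leadingCoeff_coeffMap (SemilinearAut.baseAut g).injective]
    rfl

end Fermat.Agent.GF.KumDesc.Laurent
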