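/-
GATE-F (S40/S44) / node GF-KUM-DESC, file 6 (helper19): **`n`-th roots in `K((q))`**, `n ≠ 0` in `K`.

* `powerSeries_eq_one_of_pow_eq_one` : `f ^ n = 1`, `f(0) = 1` ⟹ `f = 1` in `K[[q]]`;
* `powerSeries_exists_root`          : `f(0) = 1` ⟹ `∃ b`, `b ^ n = f`, `b(0) = 1` (Hensel for the
                                       `q`-adically complete ring `K[[q]]`);
* `exists_root`                      : `x ≠ 0`, `n ∣ order x`, `c ^ n = leadingCoeff x` ⟹
                                       `∃ y`, `y ^ n = x`, `leadingCoeff y = c`, `n * order y = order x`;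
* `root_unique`                      : `y₁ ^ n = y₂ ^ n`, same leading coefficient ⟹ `y₁ = y₂`;
* `coeffMap_root`                    : **the root with leading coefficient `1` of a series fixed
  coefficientwise by `φ` is fixed by `φ`** — this is what makes `G = g₀^{1/p}` an `I'`-fixed
  element of `K((q))`, i.e. what makes the embedding `F' = F(G) → K((q))` `I'`-equivariant.
-/
import Mathlib
import Fermat.Agent.GJ.Desc.QPlace

set_option autoImplicit false

noncomputable section

open ModularCurve HahnSeries

namespace Fermat.Agent.GF.KumDesc.LaurentRoot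

open Fermat.Agent.GJ.Desc.QP

variable {K : Type*} [Field K]

/-! ### Power series -/

theorem powerSeries_eq_one_of_pow_eq_one {n : ℕ} (hn : (n : K) ≠ 0) {f : PowerSeries K}
    (hf : f ^ n = 1) (h0 : PowerSeries.constantCoeff f = 1) : f = 1 := by
  have h1 : (∑ i ∈ Finset.range n, f ^ i) * (f - 1) = 0 := by
    rw [geom_sum_mul, hf, sub_self]
  rcases mul_eq_zero.1 h1 with h | h
  · exfalso
    have h2 := congrArg PowerSeries.constantCoeff h
    rw [map_sum, map_zero] at h2
    simp only [map_pow, h0, one_pow, Finset.sum_const, Finset.card_range, nsmul_eq_mul,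
      mul_one] at h2
    exact hn h2
  · exact sub_eq_zero.1 h

theorem powerSeries_exists_root {n : ℕ} (hn : (n : K) ≠ 0) {f : PowerSeries K}
    (h0 : PowerSeries.constantCoeff f = 1) :
    ∃ b : PowerSeries K, b ^ n = f ∧ PowerSeries.constantCoeff b = 1 := by
  have hn0 : n ≠ 0 := by
    rintro rfl
    exact hn Nat.cast_zero
  set I : Ideal (PowerSeries K) := Ideal.span {PowerSeries.X} with hI
  have hmem : ∀ g : PowerSeries K, g ∈ I ↔ PowerSeries.constantCoeff g = 0 := by
    intro g
    rw [hI, Ideal.mem_span_singleton, PowerSeries.X_dvd_iff]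
  set P : Polynomial (PowerSeries K) := Polynomial.X ^ n - Polynomial.C f with hP
  have hmonic : P.Monic := Polynomial.monic_X_pow_sub_C f hn0
  have h1 : P.eval 1 ∈ I := by
    rw [hP, Polynomial.eval_sub, Polynomial.eval_pow, Polynomial.eval_X, Polynomial.eval_C,
      one_pow, hmem, map_sub, map_one, h0, sub_self]
  have h2 : IsUnit (Ideal.Quotient.mk I (P.derivative.eval 1)) := by
    have hd : P.derivative.eval 1 = (n : PowerSeries K) := by
      rw [hP, Polynomial.derivative_sub, Polynomial.derivative_C, sub_zero,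
        Polynomial.derivative_X_pow, Polynomial.eval_mul, Polynomial.eval_pow, Polynomial.eval_X,
        one_pow, mul_one, Polynomial.eval_C]
    rw [hd]
    refine IsUnit.map _ ?_
    rw [PowerSeries.isUnit_iff_constantCoeff, map_natCast]
    exact isUnit_iff_ne_zero.2 hn
  obtain ⟨b, hb, hb1⟩ := HenselianRing.is_henselian (R := PowerSeries K) (I := I) P hmonic 1 h1 h2
  refine ⟨b, ?_, ?_⟩
  · rw [Polynomial.IsRoot, hP, Polynomial.eval_sub, Polynomial.eval_pow, Polynomial.eval_X,
      Polynomial.eval_C] at hb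
    exact sub_eq_zero.1 hb
  · have := (hmem _).1 hb1
    rw [map_sub, map_one] at this
    exact sub_eq_zero.1 this

/-! ### Laurent series -/

/-- a power series with nonzero constant term, viewed in `K((q))`: order and leading coefficient -/
theorem order_coe_of_constantCoeff_ne_zero {b : PowerSeries K}
    (hb : PowerSeries.constantCoeff b ≠ 0) :
    (HahnSeries.ofPowerSeries ℤ K b).order = 0 ∧
      (HahnSeries.ofPowerSeries ℤ K b).leadingCoeff = PowerSeries.constantCoeff b := by
  have hc0 : (HahnSeries.ofPowerSeries ℤ K b).coeff 0 = PowerSeries.constantCoeff b := by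
    have := HahnSeries.ofPowerSeries_apply_coeff (Γ := ℤ) b 0
    simpa using this
  have hne : HahnSeries.ofPowerSeries ℤ K b ≠ 0 := by
    intro h
    rw [h, HahnSeries.coeff_zero] at hc0
    exact hb hc0.symm
  have hord : (HahnSeries.ofPowerSeries ℤ K b).order = 0 := by
    apply le_antisymm
    · exact HahnSeries.order_le_of_coeff_ne_zero (by rw [hc0]; exact hb)
    · rw [HahnSeries.le_order_iff_forall hne]
      intro j hj
      have := PowerSeries.coeff_coe (R := K) b j
      rw [if_pos hj] at this
      exact this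
  refine ⟨hord, ?_⟩
  rw [HahnSeries.leadingCoeff_eq, hord, hc0]

/-- **existence of `n`-th roots in `K((q))`** -/
theorem exists_root {n : ℕ} (hn : (n : K) ≠ 0) {x : LaurentSeries K} (hx : x ≠ 0) {k : ℤ}
    (hk : x.order = n * k) {c : K} (hc : c ^ n = x.leadingCoeff) :
    ∃ y : LaurentSeries K, y ^ n = x ∧ y.leadingCoeff = c ∧ y.order = k := by
  have hn0 : n ≠ 0 := by
    rintro rfl
    exact hn Nat.cast_zero
  have ha : x.leadingCoeff ≠ 0 := HahnSeries.leadingCoeff_ne_zero.2 hx
  have hc0 : c ≠ 0 := by
    rintro rfl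
    rw [zero_pow hn0] at hc
    exact ha hc.symm
  -- the power series part, normalised
  set f : PowerSeries K := PowerSeries.C (x.leadingCoeff)⁻¹ * x.powerSeriesPart with hf
  have hf0 : PowerSeries.constantCoeff f = 1 := by
    rw [hf, map_mul, PowerSeries.constantCoeff_C]
    have : PowerSeries.constantCoeff x.powerSeriesPart = x.leadingCoeff := by
      rw [← PowerSeries.coeff_zero_eq_constantCoeff_apply, LaurentSeries.powerSeriesPart_coeff,
        HahnSeries.leadingCoeff_eq]
      simp
    rw [this]
    exact inv_mul_cancel₀ ha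
  obtain ⟨b, hb, hb0⟩ := powerSeries_exists_root hn hf0
  have hb0' : PowerSeries.constantCoeff b ≠ 0 := by rw [hb0]; exact one_ne_zero
  obtain ⟨hbord, hblc⟩ := order_coe_of_constantCoeff_ne_zero hb0'
  refine ⟨HahnSeries.single k c * HahnSeries.ofPowerSeries ℤ K b, ?_, ?_, ?_⟩
  · rw [mul_pow, HahnSeries.single_pow, ← map_pow, hb, hf, map_mul, HahnSeries.ofPowerSeries_C,
      hc, nsmul_eq_mul, ← hk]
    have h1 := LaurentSeries.single_order_mul_powerSeriesPart x
    conv_rhs => rw [← h1]
    rw [← mul_assoc]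
    congr 1
    rw [HahnSeries.C_apply, HahnSeries.single_mul_single, add_zero, mul_inv_cancel₀ ha]
  · rw [HahnSeries.leadingCoeff_mul, HahnSeries.leadingCoeff_of_single, hblc, hb0, mul_one]
  · have h1 : (HahnSeries.single k c : LaurentSeries K) ≠ 0 := by
      rw [Ne, HahnSeries.single_eq_zero_iff]; exact hc0
    have h2 : HahnSeries.ofPowerSeries ℤ K b ≠ 0 := by
      intro h
      rw [h, HahnSeries.order_zero] at hbord
      rw [h, HahnSeries.leadingCoeff_zero] at hblc
      exact hb0' hblc.symm
    rw [HahnSeries.order_mul h1 h2, HahnSeries.order_single hc0, hbord, add_zero]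

/-- a series of order `0` is the image of its power series part -/
theorem coe_powerSeriesPart_of_order_eq_zero {z : LaurentSeries K} (hz : z.order = 0) :
    HahnSeries.ofPowerSeries ℤ K z.powerSeriesPart = z := by
  have h := LaurentSeries.single_order_mul_powerSeriesPart z
  rw [hz] at h
  have h1 : (HahnSeries.single (0 : ℤ) (1 : K) : LaurentSeries K) = 1 := rfl
  rwa [h1, one_mul] at h

/-- `z ^ n = 1` with leading coefficient `1` ⟹ `z = 1` -/
theorem eq_one_of_pow_eq_one {n : ℕ} (hn : (n : K) ≠ 0) {z : LaurentSeries K} (hz : z ^ n = 1)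
    (hlc : z.leadingCoeff = 1) : z = 1 := by
  have hn0 : n ≠ 0 := by
    rintro rfl
    exact hn Nat.cast_zero
  have hz0 : z ≠ 0 := by
    rintro rfl
    rw [zero_pow hn0] at hz
    exact zero_ne_one hz
  have hord : z.order = 0 := by
    have h1 : (z ^ n).order = n • z.order := HahnSeries.order_pow z n
    rw [hz, HahnSeries.order_one] at h1
    rcases smul_eq_zero.1 h1.symm with h | h
    · exact absurd h hn0
    · exact h
  have hcoe := coe_powerSeriesPart_of_order_eq_zero hord
  have hpow : z.powerSeriesPart ^ n = 1 := by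
    apply HahnSeries.ofPowerSeries_injective (Γ := ℤ) (R := K)
    rw [map_pow, hcoe, hz, map_one]
  have hc : PowerSeries.constantCoeff z.powerSeriesPart = 1 := by
    rw [← PowerSeries.coeff_zero_eq_constantCoeff_apply, LaurentSeries.powerSeriesPart_coeff,
      ← hlc, HahnSeries.leadingCoeff_eq]
    simp
  rw [← hcoe, powerSeries_eq_one_of_pow_eq_one hn hpow hc, map_one]

/-- **uniqueness of the `n`-th root with given leading coefficient** -/
theorem root_unique {n : ℕ} (hn : (n : K) ≠ 0) {y₁ y₂ : LaurentSeries K} (h₂ : y₂ ≠ 0)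
    (hpow : y₁ ^ n = y₂ ^ n) (hlc : y₁.leadingCoeff = y₂.leadingCoeff) : y₁ = y₂ := by
  have hl2 : y₂.leadingCoeff ≠ 0 := HahnSeries.leadingCoeff_ne_zero.2 h₂
  have hz : (y₁ * y₂⁻¹) ^ n = 1 := by
    rw [mul_pow, hpow, inv_pow, mul_inv_cancel₀ (pow_ne_zero _ h₂)]
  have hlcz : (y₁ * y₂⁻¹).leadingCoeff = 1 := by
    have h1 : (y₁ * y₂⁻¹).leadingCoeff * y₂.leadingCoeff = y₁.leadingCoeff := by
      rw [← HahnSeries.leadingCoeff_mul, inv_mul_cancel_right₀ h₂]
    rw [hlc] at h1
    exact mul_right_cancel₀ hl2 (by rw [h1, one_mul])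
  have := eq_one_of_pow_eq_one hn hz hlcz
  rw [mul_inv_eq_one₀ h₂] at this
  exact this

/-- **the root with leading coefficient `1` of a coefficientwise fixed series is fixed.** -/
theorem coeffMap_root {n : ℕ} (hn : (n : K) ≠ 0) (φ : K →+* K) {x y : LaurentSeries K}
    (hy0 : y ≠ 0) (hxy : y ^ n = x) (hlc : y.leadingCoeff = 1) (hx : coeffMap φ x = x) :
    coeffMap φ y = y := by
  refine root_unique hn hy0 ?_ ?_
  · rw [← map_pow, hxy, hx]
  · rw [leadingCoeff_coeffMap φ.injective, hlc, map_one]

end Fermat.Agent.GF.KumDesc.LaurentRoot
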