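/-
GATE-F (S40/S44) / node GF-KUM-DESC, file 7 (helper19): **the `q`-expansion of the Kummer cover
`F' = AdjoinRoot (X ^ p - C g₀)` and its equivariance.**

`F / K` a field with `q`-expansion `ι₀ : F →ₐ[K] K((q))`, `g₀ ∈ F`, `γ ∈ K((q))` with
`γ ^ p = ι₀ g₀` (`LaurentRoot.exists_root`).

* `emb ι₀ g₀ γ hγ : AdjoinRoot (X ^ p - C g₀) →ₐ[K] K((q))` : `G = root ↦ γ`, extending `ι₀`;
* `emb_comp_eq`  : a ring endomorphism `σ'` of `F'` with `σ' (of x) = of (σ x)`, `σ' G = G`, where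
  `σ` acts coefficientwise through `φ` on `F` and `φ γ = γ` (`LaurentRoot.coeffMap_root`), acts
  coefficientwise through `φ` on `F'` : `emb (σ' y) = coeffMap φ (emb y)`;
* `emb_smul`     : the same for a `SemilinearAut K F'` — the binder `hS` of `Laurent.normaliser` and
  `hg` of `Laurent.smul_qPlace`.
-/
import Fermat.Agent.GF.KumDesc.Laurent
import Fermat.Agent.GF.KumDesc.LaurentRoot

set_option autoImplicit false

noncomputable section

open AlgebraicCurve ModularCurve Polynomial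

namespace Fermat.Agent.GF.KumDesc.AdjoinGlue

variable {K F : Type*} [Field K] [Field F] [Algebra K F] (ι₀ : F →ₐ[K] LaurentSeries K)
  {p : ℕ} (g₀ : F) (γ : LaurentSeries K) (hγ : γ ^ p = ι₀ g₀)

/-- the `q`-expansion of `F(G)`, `G ^ p = g₀`: `G ↦ γ`. -/
def emb : AdjoinRoot (X ^ p - C g₀ : F[X]) →ₐ[K] LaurentSeries K :=
  AdjoinRoot.liftAlgHom (X ^ p - C g₀ : F[X]) ι₀ γ (by
    rw [eval₂_sub, eval₂_pow, eval₂_X, eval₂_C, hγ]
    exact sub_self _)

@[simp] theorem emb_of (x : F) :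
    emb ι₀ g₀ γ hγ (AdjoinRoot.of (X ^ p - C g₀ : F[X]) x) = ι₀ x := by
  unfold emb
  exact AdjoinRoot.liftAlgHom_of _ _ _ _ _

@[simp] theorem emb_root :
    emb ι₀ g₀ γ hγ (AdjoinRoot.root (X ^ p - C g₀ : F[X])) = γ := by
  unfold emb
  exact AdjoinRoot.liftAlgHom_root _ _ _ _

/-- two ring homomorphisms out of `AdjoinRoot f` agreeing on the base and on the root agree -/
theorem ringHom_ext' {S : Type*} [Semiring S] {f : F[X]} {h₁ h₂ : AdjoinRoot f →+* S}
    (hof : ∀ x : F, h₁ (AdjoinRoot.of f x) = h₂ (AdjoinRoot.of f x))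
    (hroot : h₁ (AdjoinRoot.root f) = h₂ (AdjoinRoot.root f)) (y : AdjoinRoot f) :
    h₁ y = h₂ y := by
  induction y using AdjoinRoot.induction_on with
  | ih P =>
    have hmk : AdjoinRoot.mk f P = P.eval₂ (AdjoinRoot.of f) (AdjoinRoot.root f) := by
      rw [← AdjoinRoot.aeval_eq, aeval_def, AdjoinRoot.algebraMap_eq]
    rw [hmk, hom_eval₂, hom_eval₂, hroot]
    congr 1
    exact RingHom.ext hof

/-- **equivariance of the `q`-expansion of the cover** (ring homomorphism form) -/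
theorem emb_comp_eq (σ' : AdjoinRoot (X ^ p - C g₀ : F[X]) →+* AdjoinRoot (X ^ p - C g₀ : F[X]))
    (σ : F →+* F) (φ : K →+* K)
    (hof : ∀ x : F, σ' (AdjoinRoot.of _ x) = AdjoinRoot.of _ (σ x))
    (hroot : σ' (AdjoinRoot.root _) = AdjoinRoot.root _)
    (hσ : ∀ x : F, ι₀ (σ x) = coeffMap φ (ι₀ x)) (hγφ : coeffMap φ γ = γ)
    (y : AdjoinRoot (X ^ p - C g₀ : F[X])) :
    emb ι₀ g₀ γ hγ (σ' y) = coeffMap φ (emb ι₀ g₀ γ hγ y) := by
  have := ringHom_ext' (S := LaurentSeries K)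
    (h₁ := ((emb ι₀ g₀ γ hγ : _ →ₐ[K] LaurentSeries K) : _ →+* LaurentSeries K).comp σ')
    (h₂ := (coeffMap φ).comp ((emb ι₀ g₀ γ hγ : _ →ₐ[K] LaurentSeries K) : _ →+* LaurentSeries K))
    (fun x => by
      simp only [RingHom.comp_apply, RingHom.coe_coe]
      rw [hof, emb_of, emb_of, hσ])
    (by
      simp only [RingHom.comp_apply, RingHom.coe_coe]
      rw [hroot, emb_root, hγφ]) y
  simpa only [RingHom.comp_apply, RingHom.coe_coe] using this

/-- **equivariance of the `q`-expansion of the cover** (semilinear automorphism form): the binder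
`hS` of `Laurent.normaliser` / `hg` of `Laurent.smul_qPlace` for one automorphism. -/
theorem emb_smul [Fact (Irreducible (X ^ p - C g₀ : F[X]))]
    (g' : SemilinearAut K (AdjoinRoot (X ^ p - C g₀ : F[X])))
    (g : SemilinearAut K F)
    (hbase : SemilinearAut.baseAut g' = SemilinearAut.baseAut g)
    (hof : ∀ x : F, g' • (AdjoinRoot.of (X ^ p - C g₀ : F[X]) x) = AdjoinRoot.of _ (g • x))
    (hroot : g' • (AdjoinRoot.root (X ^ p - C g₀ : F[X])) = AdjoinRoot.root _)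
    (hg : ∀ x : F, ι₀ (g • x) = coeffMap (SemilinearAut.baseAut g : K →+* K) (ι₀ x))
    (hγg : coeffMap (SemilinearAut.baseAut g : K →+* K) γ = γ)
    (y : AdjoinRoot (X ^ p - C g₀ : F[X])) :
    emb ι₀ g₀ γ hγ (g' • y) =
      coeffMap (SemilinearAut.baseAut g' : K →+* K) (emb ι₀ g₀ γ hγ y) := by
  rw [hbase]
  exact emb_comp_eq ι₀ g₀ γ hγ
    ((SemilinearAut.toRingAut g' : AdjoinRoot (X ^ p - C g₀ : F[X]) ≃+* _) : _ →+* _)
    ((SemilinearAut.toRingAut g : F ≃+* F) : F →+* F)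
    ((SemilinearAut.baseAut g : K ≃+* K) : K →+* K) hof hroot hg hγg y

/-- **the fixed place and the normaliser of the Kummer cover, packaged**: `S'` a set of semilinear
automorphisms of `F' = F(G)`, each of which restricts to a coefficientwise automorphism of `F`
fixing `g₀`, and fixes `G`; `γ` the root of `g₀(q)` with leading coefficient `1`. -/
theorem exists_place_normaliser [Fact (Irreducible (X ^ p - C g₀ : F[X]))]
    (hp : (p : K) ≠ 0) (hlc : γ.leadingCoeff = 1)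
    (hq : ∃ f : F, (ι₀ f).order ≠ 0)
    (S' : Set (SemilinearAut K (AdjoinRoot (X ^ p - C g₀ : F[X]))))
    (hS' : ∀ g' ∈ S', ∃ g : SemilinearAut K F,
      SemilinearAut.baseAut g' = SemilinearAut.baseAut g ∧
      (∀ x : F, g' • (AdjoinRoot.of (X ^ p - C g₀ : F[X]) x) = AdjoinRoot.of _ (g • x)) ∧
      g' • (AdjoinRoot.root (X ^ p - C g₀ : F[X])) = AdjoinRoot.root _ ∧
      (∀ x : F, ι₀ (g • x) = coeffMap (SemilinearAut.baseAut g : K →+* K) (ι₀ x)) ∧
      g • g₀ = g₀) :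
    ∃ (P : Place K (AdjoinRoot (X ^ p - C g₀ : F[X]))) (_ : Generic.Normaliser S'),
      (∀ g' ∈ S', g' • P = P) ∧
      ∀ y : AdjoinRoot (X ^ p - C g₀ : F[X]), y ∈ P.toValuationSubring ↔
        y = 0 ∨ 0 ≤ (emb ι₀ g₀ γ hγ y).order := by
  have hγ0 : γ ≠ 0 := by
    rintro rfl
    rw [HahnSeries.leadingCoeff_zero] at hlc
    exact zero_ne_one hlc
  have hequiv : ∀ g' ∈ S', ∀ y : AdjoinRoot (X ^ p - C g₀ : F[X]),
      emb ι₀ g₀ γ hγ (g' • y) =
        coeffMap (SemilinearAut.baseAut g' : K →+* K) (emb ι₀ g₀ γ hγ y) := by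
    intro g' hg' y
    obtain ⟨g, hbase, hof, hroot, hg, hg0⟩ := hS' g' hg'
    refine emb_smul ι₀ g₀ γ hγ g' g hbase hof hroot hg ?_ y
    refine LaurentRoot.coeffMap_root hp _ hγ0 hγ hlc ?_
    rw [← hg, hg0]
  have hq' : ∃ f : AdjoinRoot (X ^ p - C g₀ : F[X]), (emb ι₀ g₀ γ hγ f).order ≠ 0 := by
    obtain ⟨f, hf⟩ := hq
    exact ⟨AdjoinRoot.of _ f, by rw [emb_of]; exact hf⟩
  exact ⟨Laurent.qPlace (emb ι₀ g₀ γ hγ) hq', Laurent.normaliser (emb ι₀ g₀ γ hγ) S' hequiv,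
    fun g' hg' => Laurent.smul_qPlace (emb ι₀ g₀ γ hγ) hq' g' (hequiv g' hg'),
    fun y => Laurent.mem_qPlace_iff (emb ι₀ g₀ γ hγ) hq' y⟩

end Fermat.Agent.GF.KumDesc.AdjoinGlue
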